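import Fermat.Agent.GR.S.R.AbsInert

/-!
# S19-ML : (DEC) the decomposition group permutes the reduction classes
-/

set_option autoImplicit false

noncomputable section

namespace Fermat.Agent.S19.ML

open AlgebraicCurve Fermat.Agent.GR.E Fermat.Agent.S17.FF Fermat.Agent.GR.S.R

variable {Ω F : Type} [Field Ω] [IsAlgClosed Ω] [CharZero Ω] [Field F] [Algebra Ω F] [IsFF Ω F]
variable {A : ValuationSubring Ω}

/-- [as in the first half of the proof of `AbsInert_ker_smul`: `smul_mem_chart`, `val_smul`,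
`AbsInert_base_mem_nonunits_iff`.] -/
theorem mem_ker_smul_iff (g : SemilinearAut Ω F) {x : F} (hgx : g • x = x)
    (hgA : ∀ a : Ω, SemilinearAut.baseAut g a ∈ A ↔ a ∈ A) (P : Place Ω F) (c : F) :
    g • c ∈ ker A x (g • P) ↔ c ∈ ker A x P := by
  have hgx' : g⁻¹ • x = x := by
    conv_lhs => rw [← hgx]
    exact inv_smul_smul g x
  have hgA' : ∀ a : Ω, SemilinearAut.baseAut g⁻¹ a ∈ A ↔ a ∈ A := by
    intro a
    rw [← hgA (SemilinearAut.baseAut g⁻¹ a), SemilinearAut.baseAut_inv,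
      RingEquiv.apply_symm_apply]
  have hchart : g • c ∈ chart A ({x} : Set F) ↔ c ∈ chart A ({x} : Set F) := by
    constructor
    · intro h
      have h1 := smul_mem_chart g⁻¹ hgx' hgA' h
      rwa [inv_smul_smul] at h1
    · exact smul_mem_chart g hgx hgA
  rw [mem_ker_iff, mem_ker_iff, val_smul, AbsInert_base_mem_nonunits_iff g hgA, hchart]

theorem ker_smul_eq_iff (g : SemilinearAut Ω F) {x : F} (hgx : g • x = x)
    (hgA : ∀ a : Ω, SemilinearAut.baseAut g a ∈ A ↔ a ∈ A) (P P' : Place Ω F) :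
    ker A x (g • P) = ker A x (g • P') ↔ ker A x P = ker A x P' := by
  constructor
  · intro h
    ext c
    rw [← mem_ker_smul_iff g hgx hgA P c, ← mem_ker_smul_iff g hgx hgA P' c, h]
  · intro h
    ext c
    have h1 := mem_ker_smul_iff g hgx hgA P (g⁻¹ • c)
    have h2 := mem_ker_smul_iff g hgx hgA P' (g⁻¹ • c)
    rw [smul_inv_smul] at h1 h2
    rw [h1, h2, h]

/-- **(DEC).** -/
theorem red_smul_eq_iff {h : F} (g : SemilinearAut Ω F) (hgh : g • h = h)
    (hgA : ∀ a : Ω, SemilinearAut.baseAut g a ∈ A ↔ a ∈ A) (P P' : Place Ω F) :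
    red A h (g • P) = red A h (g • P') ↔ red A h P = red A h P' := by
  classical
  have hgh' : g • h⁻¹ = h⁻¹ := by
    rw [smul_inv'', hgh]
  have hd := AbsInert_dom_smul_iff g hgh hgA P
  have hd' := AbsInert_dom_smul_iff g hgh hgA P'
  unfold red
  by_cases hP : Dom A h P <;> by_cases hP' : Dom A h P'
  · rw [if_pos hP, if_pos hP', if_pos (hd.2 hP), if_pos (hd'.2 hP'), Sum.inl.injEq, Sum.inl.injEq]
    exact ker_smul_eq_iff g hgh hgA P P'
  · rw [if_pos hP, if_neg hP', if_pos (hd.2 hP), if_neg (fun h' => hP' (hd'.1 h'))]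
    exact ⟨fun h' => (by cases h'), fun h' => (by cases h')⟩
  · rw [if_neg hP, if_pos hP', if_neg (fun h' => hP (hd.1 h')), if_pos (hd'.2 hP')]
    exact ⟨fun h' => (by cases h'), fun h' => (by cases h')⟩
  · rw [if_neg hP, if_neg hP', if_neg (fun h' => hP (hd.1 h')), if_neg (fun h' => hP' (hd'.1 h')),
      Sum.inr.injEq, Sum.inr.injEq]
    exact ker_smul_eq_iff g hgh' hgA P P'

end Fermat.Agent.S19.ML
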