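import Fermat.Agent.S19.ML.Red

/-!
# S19-ML : (LE) local equations and (ML) the moving lemma, for the reduction map `red A h`
-/

set_option autoImplicit false

noncomputable section

namespace Fermat.Agent.S19.ML

open AlgebraicCurve Fermat.Agent.GR.E Fermat.Agent.S17.FF Fermat.Agent.GR.S.R

variable {Ω F : Type} [Field Ω] [IsAlgClosed Ω] [CharZero Ω] [Field F] [Algebra Ω F] [IsFF Ω F]
variable {A : ValuationSubring Ω} {𝒪 : ValuationSubring F} {h : F}

/-- **(ML) the moving lemma.**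
[`f := ∏_{P ∈ D.support, red P ∈ red T} t_P ^ (- D P)` (zpow); `divf` of a product;
or induction on `D` (`Finsupp.induction`).] -/
theorem exists_move (G : GaussData A 𝒪) (hh : h ≠ 0) (C0 : RChart A 𝒪 h)
    (C1 : RChart A 𝒪 h⁻¹) (T : Finset (Place Ω F)) (D : Divisor Ω F) :
    ∃ f : F, f ≠ 0 ∧ ∀ Q : Place Ω F, (∃ Q' ∈ T, red A h Q = red A h Q') →
      (D + divf (K := Ω) f) Q = 0 := by
  classical
  induction D using Finsupp.induction_linear with
  | zero =>
    refine ⟨1, one_ne_zero, fun Q _ => ?_⟩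
    rw [zero_add, divf_apply, ← map_one (algebraMap Ω F), Fermat.Agent.S24.Zeros.ord_algebraMap]
  | add D₁ D₂ h₁ h₂ =>
    obtain ⟨f₁, hf₁, h₁⟩ := h₁
    obtain ⟨f₂, hf₂, h₂⟩ := h₂
    refine ⟨f₁ * f₂, mul_ne_zero hf₁ hf₂, fun Q hQ => ?_⟩
    have e₁ := h₁ Q hQ
    have e₂ := h₂ Q hQ
    rw [Finsupp.add_apply] at e₁ e₂
    rw [divf_mul hf₁ hf₂, Finsupp.add_apply, Finsupp.add_apply, Finsupp.add_apply]
    linarith
  | single P n =>
    obtain ⟨t, ht0, htP, ht⟩ := exists_local_eq G hh C0 C1 T P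
    refine ⟨t ^ (-n), zpow_ne_zero _ ht0, fun Q hQ => ?_⟩
    rw [Finsupp.add_apply, divf_apply, Q.ord_zpow]
    by_cases hQP : Q = P
    · subst hQP
      rw [Finsupp.single_eq_same, htP]
      ring
    · rw [Finsupp.single_eq_of_ne hQP, ht Q hQP (Or.inr hQ)]
      ring

end Fermat.Agent.S19.ML
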