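import Fermat.Agent.GR.S.R.Dom

/-!
# S19-ML : explicit Chinese remainder theorem in the chart ring
-/

set_option autoImplicit false

noncomputable section

namespace Fermat.Agent.S19.ML

open AlgebraicCurve Fermat.Agent.GR.E Fermat.Agent.S17.FF Fermat.Agent.GR.S.R

variable {Ω F : Type} [Field Ω] [IsAlgClosed Ω] [CharZero Ω] [Field F] [Algebra Ω F] [IsFF Ω F]
variable {A : ValuationSubring Ω} {x : F}

theorem crt_val_one (P : Place Ω F) : val P (1 : F) = 1 := by
  have h := val_algebraMap (F := F) P (1 : Ω)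
  rwa [map_one] at h

theorem crt_val_add {P : Place Ω F} (hP : Dom A x P) {c d : F} (hc : c ∈ chart A ({x} : Set F))
    (hd : d ∈ chart A ({x} : Set F)) : val P (c + d) = val P c + val P d :=
  val_add P (ord_nonneg_of_mem_chart hP hc) (ord_nonneg_of_mem_chart hP hd)

theorem crt_val_mul {P : Place Ω F} (hP : Dom A x P) {c d : F} (hc : c ∈ chart A ({x} : Set F))
    (hd : d ∈ chart A ({x} : Set F)) : val P (c * d) = val P c * val P d :=
  val_mul P (ord_nonneg_of_mem_chart hP hc) (ord_nonneg_of_mem_chart hP hd)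

theorem crt_val_sub {P : Place Ω F} (hP : Dom A x P) {c d : F} (hc : c ∈ chart A ({x} : Set F))
    (hd : d ∈ chart A ({x} : Set F)) : val P (c - d) = val P c - val P d := by
  have h := crt_val_add hP (sub_mem hc hd) hd
  rw [sub_add_cancel] at h
  rw [h, add_sub_cancel_right]

/-- [the sets `ker Q`, `ker P` differ: some `c ∈ 𝒞` lies in exactly one of them; in both cases
`c' := c - c(P)` has `c'(P) = 0` and `c'(Q) = c(Q) - c(P)` is a unit of `A` (one of the two is a
unit, the other one is not); `b := c'(Q)⁻¹ c'`.] -/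
theorem exists_sep {P Q : Place Ω F} (hP : Dom A x P) (hQ : Dom A x Q)
    (hne : ker A x Q ≠ ker A x P) :
    ∃ b ∈ chart A ({x} : Set F), val P b = 0 ∧ val Q b = 1 := by
  have hex : ∃ c ∈ chart A ({x} : Set F),
      ¬ (val Q c ∈ A.nonunits ↔ val P c ∈ A.nonunits) := by
    by_contra hcon
    apply hne
    ext c
    rw [mem_ker_iff, mem_ker_iff]
    constructor
    · rintro ⟨hc, h⟩
      refine ⟨hc, ?_⟩
      by_contra h'
      exact hcon ⟨c, hc, fun hiff => h' (hiff.1 h)⟩
    · rintro ⟨hc, h⟩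
      refine ⟨hc, ?_⟩
      by_contra h'
      exact hcon ⟨c, hc, fun hiff => h' (hiff.2 h)⟩
  obtain ⟨c, hc, hiff⟩ := hex
  have haP : val P c ∈ A := val_mem_of_mem_chart hP hc
  have haQ : val Q c ∈ A := val_mem_of_mem_chart hQ hc
  have hu : val Q c - val P c ∉ A.nonunits := by
    intro hu
    apply hiff
    constructor
    · intro h
      have h1 := Dom_nonunits_add A h (Dom_nonunits_neg A hu)
      have h2 : val Q c + -(val Q c - val P c) = val P c := by ring
      rwa [h2] at h1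
    · intro h
      have h1 := Dom_nonunits_add A hu h
      rwa [sub_add_cancel] at h1
  rw [Dom_mem_nonunits_iff, not_or, not_not] at hu
  obtain ⟨hu0, huinv⟩ := hu
  have hcP : c - algebraMap Ω F (val P c) ∈ chart A ({x} : Set F) :=
    sub_mem hc (algebraMap_mem_chart haP)
  refine ⟨algebraMap Ω F (val Q c - val P c)⁻¹ * (c - algebraMap Ω F (val P c)),
    mul_mem (algebraMap_mem_chart huinv) hcP, ?_, ?_⟩
  · rw [crt_val_mul hP (algebraMap_mem_chart huinv) hcP,
      crt_val_sub hP hc (algebraMap_mem_chart haP), val_algebraMap, val_algebraMap, sub_self,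
      mul_zero]
  · rw [crt_val_mul hQ (algebraMap_mem_chart huinv) hcP,
      crt_val_sub hQ hc (algebraMap_mem_chart haP), val_algebraMap, val_algebraMap,
      inv_mul_cancel₀ hu0]

/-- [`b := 1 - ∏_{Q ∈ T} (1 - b_Q)`.] -/
theorem exists_crt {P : Place Ω F} (hP : Dom A x P) (T : Finset (Place Ω F))
    (hT : ∀ Q ∈ T, Dom A x Q ∧ ker A x Q ≠ ker A x P) :
    ∃ b ∈ chart A ({x} : Set F), val P b = 0 ∧ ∀ Q ∈ T, val Q b = 1 := by
  classical
  induction T using Finset.induction_on with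
  | empty =>
    refine ⟨0, zero_mem _, ?_, fun Q hQ => absurd hQ (Finset.notMem_empty Q)⟩
    have h := val_algebraMap (F := F) P (0 : Ω)
    rwa [map_zero] at h
  | insert Q T _ ih =>
    obtain ⟨b₁, hb₁, hP₁, hT₁⟩ := ih fun Q' hQ' => hT Q' (Finset.mem_insert_of_mem hQ')
    obtain ⟨hQ, hQne⟩ := hT Q (Finset.mem_insert_self Q T)
    obtain ⟨b₂, hb₂, hP₂, hQ₂⟩ := exists_sep hP hQ hQne
    have hval : ∀ {P' : Place Ω F}, Dom A x P' →
        val P' (b₁ + b₂ - b₁ * b₂) = val P' b₁ + val P' b₂ - val P' b₁ * val P' b₂ := by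
      intro P' hP'
      rw [crt_val_sub hP' (add_mem hb₁ hb₂) (mul_mem hb₁ hb₂), crt_val_add hP' hb₁ hb₂,
        crt_val_mul hP' hb₁ hb₂]
    refine ⟨b₁ + b₂ - b₁ * b₂, sub_mem (add_mem hb₁ hb₂) (mul_mem hb₁ hb₂), ?_, ?_⟩
    · rw [hval hP, hP₁, hP₂]
      ring
    · intro Q' hQ'
      rcases Finset.mem_insert.1 hQ' with rfl | hQ'
      · rw [hval hQ, hQ₂]
        ring
      · rw [hval (hT Q' (Finset.mem_insert_of_mem hQ')).1, hT₁ Q' hQ']
        ring

/-- if `y(Q') = 1` then `y` has no zero in the class of `Q'`.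
[`y - 1 ∈ ker Q' = ker Q`, so `y(Q) ∈ 1 + 𝔪`, so `y ∉ ker Q`; `ord_eq_zero_of_not_mem_ker`.] -/
theorem ord_eq_zero_of_val_eq_one {Q Q' : Place Ω F} (hQ : Dom A x Q) (hQ' : Dom A x Q')
    (hk : ker A x Q = ker A x Q') {y : F} (hy : y ∈ chart A ({x} : Set F)) (h1 : val Q' y = 1) :
    Q.ord y = 0 := by
  refine ord_eq_zero_of_not_mem_ker hQ hy fun hyk => ?_
  have h2 : y - 1 ∈ ker A x Q := by
    rw [hk]
    refine ⟨sub_mem hy (one_mem _), ?_⟩
    rw [crt_val_sub hQ' hy (one_mem _), h1, crt_val_one, sub_self]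
    exact Dom_zero_mem_nonunits A
  have h3 := sub_mem_ker hQ hyk h2
  rw [sub_sub_cancel] at h3
  exact one_not_mem_ker Q h3

end Fermat.Agent.S19.ML
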