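import Fermat.Agent.S19.ML.Monic
import Fermat.Agent.GR.S.R.Dom2
import Fermat.Agent.GR.S.R.NU

/-!
# S19-ML : no zeros and no poles outside the chart
-/

set_option autoImplicit false

noncomputable section

namespace Fermat.Agent.S19.ML

open AlgebraicCurve Fermat.Agent.GR.E Fermat.Agent.S17.FF Fermat.Agent.GR.S.R

variable {Ω F : Type} [Field Ω] [IsAlgClosed Ω] [CharZero Ω] [Field F] [Algebra Ω F] [IsFF Ω F]
variable {A : ValuationSubring Ω} {x : F}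

/-- [`Dom2_exists_pow_mul_mem_chart` with `s = x⁻¹`, `S = {x⁻¹}`; `chart A {x} ≤
chart A (insert (x⁻¹)⁻¹ {x⁻¹})` by `Dom2_chart_mono`.] -/
theorem exists_pow_mul_mem (hx : x ≠ 0) {Y : F} (hY : Y ∈ chart A ({x} : Set F)) :
    ∃ k : ℕ, ∀ n, k ≤ n → x⁻¹ ^ n * Y ∈ chart A ({x⁻¹} : Set F) := by
  have hY' : Y ∈ chart A (insert (x⁻¹)⁻¹ ({x⁻¹} : Set F)) := by
    refine Dom2_chart_mono ?_ hY
    rw [inv_inv]
    exact Set.singleton_subset_iff.mpr (Set.mem_insert _ _)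
  obtain ⟨k, hk⟩ := Dom2_exists_pow_mul_mem_chart (R := A) (S := ({x⁻¹} : Set F)) (s := x⁻¹)
    (Set.mem_singleton _) (inv_ne_zero hx) hY'
  refine ⟨k, fun n hn => ?_⟩
  obtain ⟨j, rfl⟩ := Nat.exists_eq_add_of_le hn
  rw [add_comm, pow_add, mul_assoc]
  exact Subalgebra.mul_mem _ (Subalgebra.pow_mem _ self_mem_chart j) hk

/-- a function of the chart ring of `x⁻¹` whose value at `Q` is in `1 + 𝔪` has order `0`. -/
theorem ord_eq_zero_of_val_sub_one {z : F} {Q : Place Ω F} (hQ : Dom A z Q) {y : F}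
    (hy : y ∈ chart A ({z} : Set F)) (h1 : val Q y - 1 ∈ A.nonunits) : Q.ord y = 0 := by
  refine ord_eq_zero_of_not_mem_ker hQ hy fun hk => ?_
  have := nu_sub hk.2 h1
  rw [sub_sub_cancel] at this
  exact one_not_nu this

/-- the normalised function `x⁻¹ ^ n (W + m ^ K)` has its value in `1 + 𝔪`. -/
theorem inf_aux {n : ℕ} {W M : F} {Q : Place Ω F} (hQ : Dom A x⁻¹ Q)
    (hv : val Q x⁻¹ ∈ A.nonunits) (hn : 0 < n)
    (hW : x⁻¹ ^ (n - 1) * W ∈ chart A ({x⁻¹} : Set F))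
    (hM : x⁻¹ ^ n * M ∈ chart A ({x⁻¹} : Set F)) (hM1 : val Q (x⁻¹ ^ n * M) - 1 ∈ A.nonunits) :
    x⁻¹ ^ n * (W + M) ≠ 0 ∧ Q.ord (x⁻¹ ^ n * (W + M)) = 0 := by
  have hxk : x⁻¹ ∈ ker A x⁻¹ Q := ⟨self_mem_chart, hv⟩
  have ha : x⁻¹ ^ n * W ∈ ker A x⁻¹ Q := by
    obtain ⟨j, rfl⟩ : ∃ j, n = j + 1 := ⟨n - 1, by omega⟩
    rw [Nat.add_sub_cancel] at hW
    have := mul_mem_ker hQ hW hxk
    have e : x⁻¹ ^ (j + 1) * W = x⁻¹ ^ j * W * x⁻¹ := by ring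
    rw [e]
    exact this
  have hu : x⁻¹ ^ n * (W + M) ∈ chart A ({x⁻¹} : Set F) := by
    rw [mul_add]
    exact Subalgebra.add_mem _ ha.1 hM
  have hval : val Q (x⁻¹ ^ n * (W + M)) - 1 ∈ A.nonunits := by
    rw [mul_add, val_add Q (ord_nonneg_of_mem_chart hQ ha.1) (ord_nonneg_of_mem_chart hQ hM),
      add_sub_assoc]
    exact nu_add ha.2 hM1
  refine ⟨fun h0 => ?_, ord_eq_zero_of_val_sub_one hQ hu hval⟩
  rw [h0] at hval
  have h1 : val Q (0 : F) = 0 := by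
    have := val_algebraMap Q (0 : Ω)
    rwa [map_zero] at this
  rw [h1, zero_sub] at hval
  have := nu_neg hval
  rw [neg_neg] at this
  exact one_not_nu this

/-- [`Q` outside `Dom x`: `Dom x⁻¹ Q`, `x⁻¹(Q) ∈ 𝔪` (`dom_inv_of_not_dom`).  `k` from
`exists_pow_mul_mem` for `Y`, `K₀ := k + 1` (`d K ≥ K > k`).  `x⁻¹ ^ (dK) (Y + m ^ K) =
x⁻¹ ^ (dK - k) (x⁻¹ ^ k Y) + x⁻¹ ^ (dK) m ^ K` has its value in `𝔪 + (1 + 𝔪)`; the same for
`1 + m ^ K` (`Y = 1`).  So both have order `0` at `Q`, in particular they are `≠ 0`, and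
`ord_Q` of the quotient is `0`.] -/
theorem exists_bound_ord_eq_zero (hx : x ≠ 0) {m : F} {d : ℕ} (hm : MonicLike A x m d) {Y : F}
    (hY : Y ∈ chart A ({x} : Set F)) :
    ∃ K₀ : ℕ, ∀ K, K₀ ≤ K → ∀ Q : Place Ω F, ¬ Dom A x Q →
      Q.ord ((Y + m ^ K) / (1 + m ^ K)) = 0 := by
  obtain ⟨k, hk⟩ := exists_pow_mul_mem (A := A) hx hY
  refine ⟨k + 1, fun K hK Q hQ => ?_⟩
  obtain ⟨hQ', hv⟩ := dom_inv_of_not_dom hx hQ
  have hK0 : 0 < K := by omega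
  have hmK := hm.pow hK0
  have hd := hm.pos
  have hn : k + 1 ≤ d * K := le_trans hK (Nat.le_mul_of_pos_left K hd)
  have h1 := inf_aux (W := Y) (M := m ^ K) hQ' hv (by omega : 0 < d * K)
    (hk _ (by omega)) hmK.mem' (hmK.val' Q hQ' hv)
  have h2 := inf_aux (W := 1) (M := m ^ K) hQ' hv (by omega : 0 < d * K)
    (by rw [mul_one]; exact Subalgebra.pow_mem _ self_mem_chart _) hmK.mem' (hmK.val' Q hQ' hv)
  have hx0 : x⁻¹ ^ (d * K) ≠ 0 := pow_ne_zero _ (inv_ne_zero hx)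
  have e : (Y + m ^ K) / (1 + m ^ K) =
      (x⁻¹ ^ (d * K) * (Y + m ^ K)) * (x⁻¹ ^ (d * K) * (1 + m ^ K))⁻¹ := by
    rw [← div_eq_mul_inv, mul_div_mul_left _ _ hx0]
  rw [e, Q.ord_mul h1.1 (inv_ne_zero h2.1), Q.ord_inv, h1.2, h2.2]
  simp

end Fermat.Agent.S19.ML
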