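import Fermat.Agent.S19.ML.Second
import Fermat.Agent.S19.ML.Crt
import Fermat.Agent.S19.ML.Inf

/-!
# S19-ML : (LE) local equations, in one chart
-/

set_option autoImplicit false

noncomputable section

namespace Fermat.Agent.S19.ML

open AlgebraicCurve Fermat.Agent.GR.E Fermat.Agent.S17.FF Fermat.Agent.GR.S.R

variable {Ω F : Type} [Field Ω] [IsAlgClosed Ω] [CharZero Ω] [Field F] [Algebra Ω F] [IsFF Ω F]
variable {A : ValuationSubring Ω} {𝒪 : ValuationSubring F} {x : F}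

theorem chart_val_add {Q : Place Ω F} (hQ : Dom A x Q) {c d : F}
    (hc : c ∈ chart A ({x} : Set F)) (hd : d ∈ chart A ({x} : Set F)) :
    val Q (c + d) = val Q c + val Q d :=
  val_add Q (ord_nonneg_of_mem_chart hQ hc) (ord_nonneg_of_mem_chart hQ hd)

theorem chart_val_mul {Q : Place Ω F} (hQ : Dom A x Q) {c d : F}
    (hc : c ∈ chart A ({x} : Set F)) (hd : d ∈ chart A ({x} : Set F)) :
    val Q (c * d) = val Q c * val Q d :=
  val_mul Q (ord_nonneg_of_mem_chart hQ hc) (ord_nonneg_of_mem_chart hQ hd)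

theorem chart_val_one (Q : Place Ω F) : val Q (1 : F) = 1 := by
  have := val_algebraMap Q (1 : Ω)
  rwa [map_one] at this

theorem chart_val_neg {Q : Place Ω F} (hQ : Dom A x Q) {c : F}
    (hc : c ∈ chart A ({x} : Set F)) : val Q (-c) = - val Q c := by
  have h1 : (-1 : F) ∈ chart A ({x} : Set F) := Subalgebra.neg_mem _ (Subalgebra.one_mem _)
  have e : -c = (-1) * c := by ring
  have h2 : val Q (-1 : F) = -1 := by
    have := val_algebraMap Q (-1 : Ω)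
    rwa [map_neg, map_one] at this
  rw [e, chart_val_mul hQ h1 hc, h2]
  ring

theorem chart_val_sub {Q : Place Ω F} (hQ : Dom A x Q) {c d : F}
    (hc : c ∈ chart A ({x} : Set F)) (hd : d ∈ chart A ({x} : Set F)) :
    val Q (c - d) = val Q c - val Q d := by
  rw [sub_eq_add_neg, chart_val_add hQ hc (Subalgebra.neg_mem _ hd), chart_val_neg hQ hd,
    sub_eq_add_neg]

theorem chart_val_pow {Q : Place Ω F} (hQ : Dom A x Q) {c : F}
    (hc : c ∈ chart A ({x} : Set F)) (n : ℕ) : val Q (c ^ n) = val Q c ^ n := by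
  induction n with
  | zero => simpa using chart_val_one Q
  | succ n ih => rw [pow_succ, chart_val_mul hQ (Subalgebra.pow_mem _ hc n) hc, ih, pow_succ]

/-- **(LE) in a chart.**
[`t₀` from `exists_isParam`, `b` from `exists_crt`, `(m, d)` from `exists_monicLike`,
`Y₀ := t₀ + b ^ 2 * (1 - t₀)`, `K := max 2 K₀` with `K₀` from `exists_bound_ord_eq_zero` for `Y₀`,
`Y := Y₀ + m ^ K = t₀ + β`, `β := b ^ 2 * (1 - t₀) + m ^ K`, `E := 1 + m ^ K`, `f := Y / E`.
* `β ∈ 𝒞`, `β(P) = 0`, `Div … t₀ 2 β` (`b, m ∈ ker P`: `div_one_of_mem_ker`, `div_mul`, `div_add`,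
  `div_mul_left`; `m ^ K = m * m * m ^ (K-2)`), so `IsParam … P Y` (`isParam_add`) and
  `ord_of_cnt_eq_one` gives the orders of `Y` on the class of `P`.
* `E(P) = 1`, `E(Q') = 1`, `Y(Q') = t₀(Q') + 1 - t₀(Q') + 0 = 1` for `Q' ∈ T`:
  `ord_eq_zero_of_val_eq_one`.
* outside `Dom x`: `exists_bound_ord_eq_zero`.] -/
theorem exists_local_eq_chart (G : GaussData A 𝒪) (hx : x ≠ 0) (hC : RChart A 𝒪 x)
    {P : Place Ω F} (hP : Dom A x P) (T : Finset (Place Ω F))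
    (hT : ∀ Q ∈ T, Dom A x Q ∧ ker A x Q ≠ ker A x P) :
    ∃ f : F, f ≠ 0 ∧ P.ord f = 1 ∧ ∀ Q : Place Ω F, Q ≠ P →
      (¬ Dom A x Q ∨ ker A x Q = ker A x P ∨ ∃ Q' ∈ T, ker A x Q = ker A x Q') →
      Q.ord f = 0 := by
  obtain ⟨t₀, ht₀⟩ := exists_isParam G hC hP
  obtain ⟨b, hb, hbP, hbT⟩ := exists_crt hP T hT
  obtain ⟨m, d, hm, hmP, hmT⟩ := exists_monicLike hx hP T (fun Q hQ => (hT Q hQ).1)
  have h1 : (1 : F) ∈ chart A ({x} : Set F) := Subalgebra.one_mem _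
  have h1t : 1 - t₀ ∈ chart A ({x} : Set F) := Subalgebra.sub_mem _ h1 ht₀.mem
  have hb2 : b ^ 2 ∈ chart A ({x} : Set F) := Subalgebra.pow_mem _ hb 2
  have hbt : b ^ 2 * (1 - t₀) ∈ chart A ({x} : Set F) := Subalgebra.mul_mem _ hb2 h1t
  have hY₀ : t₀ + b ^ 2 * (1 - t₀) ∈ chart A ({x} : Set F) := Subalgebra.add_mem _ ht₀.mem hbt
  obtain ⟨K₀, hK₀⟩ := exists_bound_ord_eq_zero hx hm hY₀
  obtain ⟨K, hK2, hKK⟩ : ∃ K, 2 ≤ K ∧ K₀ ≤ K := ⟨max 2 K₀, le_max_left _ _, le_max_right _ _⟩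
  have hK0 : K ≠ 0 := by omega
  have hmK : m ^ K ∈ chart A ({x} : Set F) := Subalgebra.pow_mem _ hm.mem K
  have hβ : b ^ 2 * (1 - t₀) + m ^ K ∈ chart A ({x} : Set F) := Subalgebra.add_mem _ hbt hmK
  have hE : 1 + m ^ K ∈ chart A ({x} : Set F) := Subalgebra.add_mem _ h1 hmK
  have hβP : val P (b ^ 2 * (1 - t₀) + m ^ K) = 0 := by
    rw [chart_val_add hP hbt hmK, chart_val_mul hP hb2 h1t, chart_val_pow hP hb,
      chart_val_pow hP hm.mem, hbP, hmP, zero_pow hK0]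
    simp
  have hbk : b ∈ ker A x P := ⟨hb, by rw [hbP]; exact nu_zero⟩
  have hmk : m ∈ ker A x P := ⟨hm.mem, by rw [hmP]; exact nu_zero⟩
  have hdb := div_one_of_mem_ker G hC hP ht₀ hbk
  have hdm := div_one_of_mem_ker G hC hP ht₀ hmk
  have hdiv : Div A 𝒪 x P t₀ 2 (b ^ 2 * (1 - t₀) + m ^ K) := by
    refine div_add G hC hP ?_ ?_
    · have := div_mul_left G hC h1t (div_mul G hC hP ht₀.mem hb hb hdb hdb)
      have e : b ^ 2 * (1 - t₀) = (1 - t₀) * (b * b) := by ring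
      rw [e]
      exact this
    · have := div_mul_left G hC (Subalgebra.pow_mem _ hm.mem (K - 2))
        (div_mul G hC hP ht₀.mem hm.mem hm.mem hdm hdm)
      have e : m ^ K = m ^ (K - 2) * (m * m) := by
        obtain ⟨j, rfl⟩ := Nat.exists_eq_add_of_le hK2
        rw [Nat.add_sub_cancel_left]
        ring
      rw [e]
      exact this
  have hY := isParam_add G hC hP ht₀ hβ hβP hdiv
  have hYe : t₀ + (b ^ 2 * (1 - t₀) + m ^ K) = t₀ + b ^ 2 * (1 - t₀) + m ^ K := by ring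
  rw [hYe] at hY
  have hY0 : t₀ + b ^ 2 * (1 - t₀) + m ^ K ≠ 0 := ne_zero_of_not_nu hY.prim
  obtain ⟨hYP, hYQ⟩ := ord_of_cnt_eq_one hP hY.mem hY0 hY.val hY.cnt
  have hEP : val P (1 + m ^ K) = 1 := by
    rw [chart_val_add hP h1 hmK, chart_val_pow hP hm.mem, hmP, zero_pow hK0, chart_val_one]
    simp
  have hE0 : 1 + m ^ K ≠ 0 := by
    intro h0
    rw [h0] at hEP
    have hz : val P (0 : F) = 0 := by
      have := val_algebraMap P (0 : Ω)
      rwa [map_zero] at this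
    rw [hz] at hEP
    exact zero_ne_one hEP
  have hord : ∀ Q : Place Ω F, Q.ord ((t₀ + b ^ 2 * (1 - t₀) + m ^ K) / (1 + m ^ K)) =
      Q.ord (t₀ + b ^ 2 * (1 - t₀) + m ^ K) - Q.ord (1 + m ^ K) := by
    intro Q
    rw [div_eq_mul_inv, Q.ord_mul hY0 (inv_ne_zero hE0), Q.ord_inv]
    ring
  refine ⟨(t₀ + b ^ 2 * (1 - t₀) + m ^ K) / (1 + m ^ K), div_ne_zero hY0 hE0, ?_, ?_⟩
  · rw [hord, hYP, ord_eq_zero_of_val_eq_one hP hP rfl hE hEP, sub_zero]
  · intro Q hQP hQ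
    by_cases hD : Dom A x Q
    · rcases hQ with hQ | hQ | ⟨Q', hQ'T, hQ'⟩
      · exact absurd hD hQ
      · rw [hord, hYQ Q ⟨hD, hQ⟩ hQP, ord_eq_zero_of_val_eq_one hD hP hQ hE hEP, sub_zero]
      · have hD' := (hT Q' hQ'T).1
        have hEQ : val Q' (1 + m ^ K) = 1 := by
          rw [chart_val_add hD' h1 hmK, chart_val_pow hD' hm.mem, hmT Q' hQ'T, zero_pow hK0,
            chart_val_one]
          simp
        have hYQ' : val Q' (t₀ + b ^ 2 * (1 - t₀) + m ^ K) = 1 := by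
          rw [chart_val_add hD' hY₀ hmK, chart_val_add hD' ht₀.mem hbt,
            chart_val_mul hD' hb2 h1t, chart_val_pow hD' hb, chart_val_sub hD' h1 ht₀.mem,
            chart_val_pow hD' hm.mem, hmT Q' hQ'T, hbT Q' hQ'T, zero_pow hK0, chart_val_one]
          ring
        rw [hord, ord_eq_zero_of_val_eq_one hD hD' hQ' hY.mem hYQ',
          ord_eq_zero_of_val_eq_one hD hD' hQ' hE hEQ, sub_zero]
    · exact hK₀ K hKK Q hD

end Fermat.Agent.S19.ML
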