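import Fermat.Agent.GR.S.R.Dom2

/-!
# S19-ML : functions which behave like monic polynomials in the coordinate
-/

set_option autoImplicit false

noncomputable section

namespace Fermat.Agent.S19.ML

open AlgebraicCurve Fermat.Agent.GR.E Fermat.Agent.S17.FF Fermat.Agent.GR.S.R

variable {Ω F : Type} [Field Ω] [IsAlgClosed Ω] [CharZero Ω] [Field F] [Algebra Ω F] [IsFF Ω F]
variable {A : ValuationSubring Ω} {x : F}

/-- `m` behaves like a monic polynomial of degree `d ≥ 1` in `x` with coefficients in `A`. -/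
structure MonicLike (A : ValuationSubring Ω) (x m : F) (d : ℕ) : Prop where
  pos : 0 < d
  mem : m ∈ chart A ({x} : Set F)
  mem' : x⁻¹ ^ d * m ∈ chart A ({x⁻¹} : Set F)
  val' : ∀ Q : Place Ω F, Dom A x⁻¹ Q → val Q x⁻¹ ∈ A.nonunits →
    val Q (x⁻¹ ^ d * m) - 1 ∈ A.nonunits

open Fermat.Agent.S24.Zeros in
theorem Monic_val_sub (P : Place Ω F) {c : F} (hc : 0 ≤ P.ord c) (a : Ω) :
    val P (c - algebraMap Ω F a) = val P c - a := by
  have h : c - algebraMap Ω F a = c + algebraMap Ω F (-a) := by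
    rw [map_neg, sub_eq_add_neg]
  rw [h, val_add P hc (le_of_eq (ord_algebraMap P _).symm), val_algebraMap, sub_eq_add_neg]

open Fermat.Agent.S24.Zeros in
/-- [`x⁻¹ (x - a) = 1 - a x⁻¹`.] -/
theorem monicLike_sub (hx : x ≠ 0) {a : Ω} (ha : a ∈ A) :
    MonicLike A x (x - algebraMap Ω F a) 1 := by
  have hkey : x⁻¹ ^ 1 * (x - algebraMap Ω F a) = algebraMap Ω F (-a) * x⁻¹ + 1 := by
    rw [pow_one, mul_sub, inv_mul_cancel₀ hx, map_neg]
    ring
  refine ⟨one_pos, sub_mem self_mem_chart (algebraMap_mem_chart ha), ?_, fun Q hQ hv => ?_⟩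
  · rw [hkey]
    exact add_mem (mul_mem (algebraMap_mem_chart (A.neg_mem _ ha)) self_mem_chart) (one_mem _)
  · have h0 : 0 ≤ Q.ord (algebraMap Ω F (-a)) := le_of_eq (ord_algebraMap Q _).symm
    have h1 : 0 ≤ Q.ord (algebraMap Ω F (-a) * x⁻¹) :=
      ord_nonneg_of_mem_chart hQ
        (mul_mem (algebraMap_mem_chart (A.neg_mem _ ha)) self_mem_chart)
    have h2 : 0 ≤ Q.ord (1 : F) := ord_nonneg_of_mem_chart hQ (one_mem _)
    rw [hkey, val_add Q h1 h2, val_mul Q h0 hQ.1, val_algebraMap, Dom2_val_one, add_sub_cancel_right]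
    exact Dom2_mul_mem_nonunits (A.neg_mem _ ha) hv

theorem MonicLike.mul {m m' : F} {d d' : ℕ} (h : MonicLike A x m d) (h' : MonicLike A x m' d') :
    MonicLike A x (m * m') (d + d') := by
  have hkey : x⁻¹ ^ (d + d') * (m * m') = (x⁻¹ ^ d * m) * (x⁻¹ ^ d' * m') := by
    rw [pow_add]
    ring
  refine ⟨Nat.add_pos_left h.pos _, mul_mem h.mem h'.mem, ?_, fun Q hQ hv => ?_⟩
  · rw [hkey]
    exact mul_mem h.mem' h'.mem'
  · rw [hkey, val_mul Q (ord_nonneg_of_mem_chart hQ h.mem') (ord_nonneg_of_mem_chart hQ h'.mem')]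
    have h1 := h.val' Q hQ hv
    have h2 := h'.val' Q hQ hv
    have h3 : val Q (x⁻¹ ^ d' * m') ∈ A := val_mem_of_mem_chart hQ h'.mem'
    have h4 : val Q (x⁻¹ ^ d * m) * val Q (x⁻¹ ^ d' * m') - 1
        = val Q (x⁻¹ ^ d' * m') * (val Q (x⁻¹ ^ d * m) - 1) + (val Q (x⁻¹ ^ d' * m') - 1) := by
      ring
    rw [h4]
    exact Dom_nonunits_add A (Dom2_mul_mem_nonunits h3 h1) h2

theorem MonicLike.pow {m : F} {d : ℕ} (h : MonicLike A x m d) {K : ℕ} (hK : 0 < K) :
    MonicLike A x (m ^ K) (d * K) := by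
  induction K, hK using Nat.le_induction with
  | base =>
    rw [Nat.succ_eq_add_one, zero_add, pow_one, mul_one]
    exact h
  | succ n _ ih =>
    rw [pow_succ, Nat.mul_succ]
    exact ih.mul h

/-- [`m := (x - x(P)) * ∏_{Q ∈ T} (x - x(Q))`.] -/
theorem exists_monicLike (hx : x ≠ 0) {P : Place Ω F} (hP : Dom A x P) (T : Finset (Place Ω F))
    (hT : ∀ Q ∈ T, Dom A x Q) :
    ∃ (m : F) (d : ℕ), MonicLike A x m d ∧ val P m = 0 ∧ ∀ Q ∈ T, val Q m = 0 := by
  classical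
  induction T using Finset.induction_on with
  | empty =>
    refine ⟨x - algebraMap Ω F (val P x), 1, monicLike_sub hx hP.2, ?_, fun Q hQ => ?_⟩
    · rw [Monic_val_sub P hP.1, sub_self]
    · exact absurd hQ (Finset.notMem_empty Q)
  | insert Q₀ T _ ih =>
    obtain ⟨m, d, hm, hmP, hmT⟩ := ih (fun Q hQ => hT Q (Finset.mem_insert_of_mem hQ))
    have hQ₀ : Dom A x Q₀ := hT Q₀ (Finset.mem_insert_self _ _)
    have hl := monicLike_sub (A := A) hx hQ₀.2
    refine ⟨m * (x - algebraMap Ω F (val Q₀ x)), d + 1, hm.mul hl, ?_, fun Q hQ => ?_⟩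
    · rw [val_mul P (ord_nonneg_of_mem_chart hP hm.mem) (ord_nonneg_of_mem_chart hP hl.mem), hmP,
        zero_mul]
    · have hQd : Dom A x Q := hT Q hQ
      rw [val_mul Q (ord_nonneg_of_mem_chart hQd hm.mem) (ord_nonneg_of_mem_chart hQd hl.mem)]
      rcases Finset.mem_insert.1 hQ with rfl | hQ'
      · rw [Monic_val_sub Q hQd.1, sub_self, mul_zero]
      · rw [hmT Q hQ', zero_mul]

end Fermat.Agent.S19.ML
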