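import Fermat.Agent.GR.S.R.Inf4

/-!
# S19-ML : local parameters at a place, on the abstract layer of GR/S/R

`Ω` algebraically closed of characteristic `0`, `A` a valuation subring, `𝔪 = A.nonunits`, `F / Ω` a
function field, `𝒪` the Gauss valuation subring of `F`, `𝔐 = 𝒪.nonunits`, `x` a chart coordinate,
`𝒞 = chart A {x}`, `Dom A x P`, `ker A x P`, `cls A x s`, `cnt X y` as in `GR/S/R/Defs.lean`.
"primitive" = not in `𝔐`.
-/

set_option autoImplicit false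

noncomputable section

namespace Fermat.Agent.S19.ML

open AlgebraicCurve Fermat.Agent.GR.E Fermat.Agent.S17.FF Fermat.Agent.GR.S.R

variable {Ω F : Type} [Field Ω] [IsAlgClosed Ω] [CharZero Ω] [Field F] [Algebra Ω F] [IsFF Ω F]
variable {A : ValuationSubring Ω} {𝒪 : ValuationSubring F} {x : F}

/-- `t` is a local equation of the place `P` on its reduction class. -/
structure IsParam (A : ValuationSubring Ω) (𝒪 : ValuationSubring F) (x : F) (P : Place Ω F)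
    (t : F) : Prop where
  mem : t ∈ chart A ({x} : Set F)
  prim : t ∉ 𝒪.nonunits
  val : val P t = 0
  cnt : cnt (cls A x (ker A x P)) t = 1

/-- a function of the chart ring which vanishes at `P` and has exactly one zero in the class of `P`.
[all orders on the class are `≥ 0` (`ord_nonneg_of_mem_chart`), `0 < P.ord y` (`val_eq_zero_iff`);
if `P.ord y ≥ 2` or another order is positive then `cnt ≥ 2`: use `Cnt_eq_sum` and
`Finset.sum` estimates, or: `cnt_eq_one`-style bookkeeping.] -/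
theorem ord_of_cnt_eq_one {P : Place Ω F} (hP : Dom A x P) {y : F}
    (hy : y ∈ chart A ({x} : Set F)) (h0 : y ≠ 0) (hv : val P y = 0)
    (hc : cnt (cls A x (ker A x P)) y = 1) :
    P.ord y = 1 ∧ ∀ Q ∈ cls A x (ker A x P), Q ≠ P → Q.ord y = 0 := by
  classical
  have hPX : P ∈ cls A x (ker A x P) := ⟨hP, rfl⟩
  have hnn : ∀ Q ∈ cls A x (ker A x P), 0 ≤ Q.ord y := fun Q hQ => ord_nonneg_of_mem_chart hQ.1 hy
  have hpos : 0 < P.ord y := ((val_eq_zero_iff P (hnn P hPX)).1 hv).resolve_left h0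
  rw [Cnt_eq_sum] at hc
  set s := (divf (K := Ω) y).support.filter (· ∈ cls A x (ker A x P)) with hs
  have hmem : ∀ Q, Q ∈ s ↔ Q.ord y ≠ 0 ∧ Q ∈ cls A x (ker A x P) := by
    intro Q
    rw [hs, Finset.mem_filter, Finsupp.mem_support_iff, divf_apply]
  have hPs : P ∈ s := (hmem P).2 ⟨hpos.ne', hPX⟩
  have hsum : ∑ Q ∈ s, Q.ord y = 1 := by
    rw [← hc]
  rw [← Finset.add_sum_erase s _ hPs] at hsum
  have hrest : 0 ≤ ∑ Q ∈ s.erase P, Q.ord y :=
    Finset.sum_nonneg fun Q hQ => hnn Q ((hmem Q).1 (Finset.mem_of_mem_erase hQ)).2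
  have h1 : P.ord y = 1 := by omega
  have h2 : ∑ Q ∈ s.erase P, Q.ord y = 0 := by omega
  refine ⟨h1, fun Q hQ hne => ?_⟩
  by_contra hQ0
  have hQs : Q ∈ s.erase P := Finset.mem_erase.2 ⟨hne, (hmem Q).2 ⟨hQ0, hQ⟩⟩
  exact hQ0 ((Finset.sum_eq_zero_iff_of_nonneg fun Q' hQ' =>
    hnn Q' ((hmem Q').1 (Finset.mem_of_mem_erase hQ')).2).1 h2 Q hQs)

/-- [`exists_normal_form` for `y₁ = y₂ = x - x(P)` (primitive by `RChart.nonconst`, in `ker P`, so
`n₁ = cnt y₁ ≥ 1` by `cnt_pos_of_exists`): `σ y₁ - t ^ n₁ w ∈ 𝔐`, `σ, w ∉ ker P`, `t` primitive.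
`cnt_eq_of_sub_mem` (for `σ y₁`, primitive, and `t ^ n₁ w`), `cnt_mul`, `cnt_pow`,
`cnt σ = cnt w = 0` (`ord_eq_zero_of_not_mem_ker`, `cnt_eq_zero_of_forall`): `n₁ = n₁ * cnt t`, so
`cnt t = 1`.  `t₀ := t - t(P)`, `t(P) ∈ 𝔪`: `t - t₀ ∈ 𝔐`, so `t₀` is primitive (`not_nu_of_sub`) and
`cnt t₀ = cnt t` (`cnt_eq_of_sub_mem`).] -/
theorem exists_isParam (G : GaussData A 𝒪) (hC : RChart A 𝒪 x) {P : Place Ω F}
    (hP : Dom A x P) : ∃ t : F, IsParam A 𝒪 x P t := by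
  have hPX : P ∈ cls A x (ker A x P) := ⟨hP, rfl⟩
  have ha : val P x ∈ A := hP.2
  set y₁ : F := x - algebraMap Ω F (val P x) with hy₁
  have h₁ : y₁ ∈ chart A ({x} : Set F) := sub_mem self_mem_chart (algebraMap_mem_chart ha)
  have h₁' : y₁ ∉ 𝒪.nonunits := hC.nonconst G ha
  have hy₁0 : y₁ ≠ 0 := ne_zero_of_not_nu h₁'
  have hy₁pos : 0 < P.ord y₁ := by
    rcases (val_eq_iff P hP.1 (val P x)).1 rfl with h | h
    · exact absurd (sub_eq_zero.2 h) hy₁0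
    · exact h
  obtain ⟨t, ht, ht', n₁, -, hn₁, -, ⟨σ, hσ, hσ', w, hw, hw', hsub⟩, -⟩ :=
    exists_normal_form G hC hP h₁ h₁ h₁' h₁'
  have hprim : ∀ c ∈ chart A ({x} : Set F), c ∉ ker A x P → c ∉ 𝒪.nonunits :=
    fun c hc hc' h => hc' (mem_ker_of_mem_nonunits G hC hP hc h)
  have hcnt0 : ∀ c ∈ chart A ({x} : Set F), c ∉ ker A x P → cnt (cls A x (ker A x P)) c = 0 := by
    intro c hc hc'
    refine cnt_eq_zero_of_forall _ c fun Q hQ => ord_eq_zero_of_not_mem_ker hQ.1 hc ?_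
    rw [hQ.2]
    exact hc'
  have hn₁pos : (0 : ℤ) < n₁ := by
    rw [hn₁]
    exact cnt_pos_of_exists _ y₁ (fun Q hQ => ord_nonneg_of_mem_chart hQ.1 h₁) hPX hy₁pos
  have htc : t ∈ chart A ({x} : Set F) := ht.1
  have ht0 : t ≠ 0 := ne_zero_of_not_nu ht'
  have hσ0 : σ ≠ 0 := ne_zero_of_not_nu (hprim σ hσ hσ')
  have hw0 : w ≠ 0 := ne_zero_of_not_nu (hprim w hw hw')
  have hE := cnt_eq_of_sub_mem G hC (mul_mem hσ h₁) (mul_mem (pow_mem htc n₁) hw)
    (not_nu_mul (mem_of_mem_chart G hC.mem hσ) (hprim σ hσ hσ') h₁') hsub (ker A x P)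
  rw [cnt_mul _ hσ0 hy₁0, cnt_mul _ (pow_ne_zero _ ht0) hw0, cnt_pow, hcnt0 σ hσ hσ',
    hcnt0 w hw hw', ← hn₁, zero_add, add_zero] at hE
  have hcnt : cnt (cls A x (ker A x P)) t = 1 := by
    have h3 : (n₁ : ℤ) * (cnt (cls A x (ker A x P)) t - 1) = 0 := by linear_combination -hE
    rcases mul_eq_zero.1 h3 with h | h
    · omega
    · omega
  have hvt : val P t ∈ A.nonunits := ht.2
  set t₀ : F := t - algebraMap Ω F (val P t) with ht₀
  have hsub' : t - t₀ ∈ 𝒪.nonunits := by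
    rw [ht₀, sub_sub_cancel]
    exact (algebraMap_mem_nonunits_iff G _).2 hvt
  have ht₀c : t₀ ∈ chart A ({x} : Set F) := sub_mem htc (algebraMap_mem_chart (nu_mem hvt))
  refine ⟨t₀, ht₀c, not_nu_of_sub ht' hsub', ?_, ?_⟩
  · rw [val_eq_zero_iff P (ord_nonneg_of_mem_chart hP ht₀c)]
    rcases (val_eq_iff P (ord_nonneg_of_mem_chart hP htc) (val P t)).1 rfl with h | h
    · exact Or.inl (sub_eq_zero.2 h)
    · exact Or.inr h
  · rw [← cnt_eq_of_sub_mem G hC htc ht₀c ht' hsub' (ker A x P), hcnt]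

end Fermat.Agent.S19.ML
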