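import Fermat.Agent.S19.ML.Chart

/-!
# S19-ML : (LE) local equations and (ML) the moving lemma, for the reduction map `red A h`
-/

set_option autoImplicit false

noncomputable section

namespace Fermat.Agent.S19.ML

open AlgebraicCurve Fermat.Agent.GR.E Fermat.Agent.S17.FF Fermat.Agent.GR.S.R

variable {Ω F : Type} [Field Ω] [IsAlgClosed Ω] [CharZero Ω] [Field F] [Algebra Ω F] [IsFF Ω F]
variable {A : ValuationSubring Ω} {𝒪 : ValuationSubring F} {h : F}

/-- places with the same reduction lie in the same charts and have the same `ker`.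
[`x = h`: `red Q = inl (ker_h Q)`, so `red Q'` is an `inl`: `Dom h Q'` and the kernels agree.
`x = h⁻¹`: if `¬ Dom h Q`: both are `inr`, `dom_inv_of_not_dom`.  If `Dom h Q`: `Dom h Q'`,
`ker_h Q = ker_h Q'`; `h(Q) h⁻¹(Q) = 1` with both factors in `A`, so `h ∉ ker_h Q = ker_h Q'`,
`dom_inv_of_val_not_mem` gives `Dom h⁻¹ Q'`; `ker_inv_eq_of_ker_eq`.] -/
theorem dom_ker_of_red_eq (hh : h ≠ 0) {x : F} (hx : x = h ∨ x = h⁻¹) {Q Q' : Place Ω F}
    (hred : red A h Q = red A h Q') (hQ : Dom A x Q) :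
    Dom A x Q' ∧ ker A x Q' = ker A x Q := by
  rcases hx with rfl | rfl
  · by_cases hD' : Dom A x Q'
    · rw [red, red, if_pos hQ, if_pos hD', Sum.inl.injEq] at hred
      exact ⟨hD', hred.symm⟩
    · rw [red, red, if_pos hQ, if_neg hD'] at hred
      cases hred
  · by_cases hD : Dom A h Q
    · by_cases hD' : Dom A h Q'
      · rw [red, red, if_pos hD, if_pos hD', Sum.inl.injEq] at hred
        have h1 : val Q h ∉ A.nonunits := by
          intro hv
          have := not_dom_of_val_inv_mem (A := A) (h := h⁻¹) (inv_ne_zero hh) (P := Q)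
            (by rw [inv_inv]; exact hD) (by rw [inv_inv]; exact hv)
          exact this hQ
        have h2 : val Q' h ∉ A.nonunits := by
          intro hv
          have h3 : h ∈ ker A h Q' := ⟨self_mem_chart, hv⟩
          rw [← hred] at h3
          exact h1 h3.2
        have h4 := dom_inv_of_val_not_mem hh hD' h2
        exact ⟨h4.1, (ker_inv_eq_of_ker_eq hh hD hQ hD' h4.1 hred).symm⟩
      · rw [red, red, if_pos hD, if_neg hD'] at hred
        cases hred
    · by_cases hD' : Dom A h Q'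
      · rw [red, red, if_neg hD, if_pos hD'] at hred
        cases hred
      · rw [red, red, if_neg hD, if_neg hD', Sum.inr.injEq] at hred
        exact ⟨(dom_inv_of_not_dom hh hD').1, hred.symm⟩

/-- **(LE).** [`x := h` if `Dom h P`, else `h⁻¹`; `exists_local_eq_chart` for
`T' := T.filter (fun Q' => Dom A x Q' ∧ ker A x Q' ≠ ker A x P)`; `dom_ker_of_red_eq`.] -/
theorem exists_local_eq (G : GaussData A 𝒪) (hh : h ≠ 0) (C0 : RChart A 𝒪 h)
    (C1 : RChart A 𝒪 h⁻¹) (T : Finset (Place Ω F)) (P : Place Ω F) :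
    ∃ t : F, t ≠ 0 ∧ P.ord t = 1 ∧ ∀ Q : Place Ω F, Q ≠ P →
      (red A h Q = red A h P ∨ ∃ Q' ∈ T, red A h Q = red A h Q') → Q.ord t = 0 := by
  classical
  obtain ⟨x, hx, hx0, hC, hP⟩ : ∃ x : F, (x = h ∨ x = h⁻¹) ∧ x ≠ 0 ∧ RChart A 𝒪 x ∧ Dom A x P := by
    by_cases hD : Dom A h P
    · exact ⟨h, Or.inl rfl, hh, C0, hD⟩
    · exact ⟨h⁻¹, Or.inr rfl, inv_ne_zero hh, C1, (dom_inv_of_not_dom hh hD).1⟩
  obtain ⟨f, hf0, hfP, hf⟩ := exists_local_eq_chart G hx0 hC hP
    (T.filter (fun Q' => Dom A x Q' ∧ ker A x Q' ≠ ker A x P))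
    (fun Q hQ => (Finset.mem_filter.1 hQ).2)
  refine ⟨f, hf0, hfP, fun Q hQP hQ => hf Q hQP ?_⟩
  rcases hQ with hQ | ⟨Q', hQ'T, hQ'⟩
  · exact Or.inr (Or.inl (dom_ker_of_red_eq hh hx hQ.symm hP).2)
  · by_cases hD : Dom A x Q
    · obtain ⟨h1, h2⟩ := dom_ker_of_red_eq hh hx hQ' hD
      by_cases hk : ker A x Q = ker A x P
      · exact Or.inr (Or.inl hk)
      · exact Or.inr (Or.inr ⟨Q', Finset.mem_filter.2 ⟨hQ'T, h1, by rw [h2]; exact hk⟩, h2.symm⟩)
    · exact Or.inl hD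

end Fermat.Agent.S19.ML
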