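import Fermat.Agent.S19.ML.Param

/-!
# S19-ML : perturbations of second order do not change the number of zeros
-/

set_option autoImplicit false

noncomputable section

namespace Fermat.Agent.S19.ML

open AlgebraicCurve Fermat.Agent.GR.E Fermat.Agent.S17.FF Fermat.Agent.GR.S.R

variable {Ω F : Type} [Field Ω] [IsAlgClosed Ω] [CharZero Ω] [Field F] [Algebra Ω F] [IsFF Ω F]
variable {A : ValuationSubring Ω} {𝒪 : ValuationSubring F} {x : F}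

/-- `a` is divisible by `t ^ k` near the class of `P`, modulo `𝔐`. -/
def Div (A : ValuationSubring Ω) (𝒪 : ValuationSubring F) (x : F) (P : Place Ω F) (t : F) (k : ℕ)
    (a : F) : Prop :=
  ∃ σ ∈ chart A ({x} : Set F), σ ∉ ker A x P ∧ ∃ w ∈ chart A ({x} : Set F),
    σ * a - t ^ k * w ∈ 𝒪.nonunits

theorem second_pow_sub_pow {u v : F} (hu : u ∈ 𝒪) (hv : v ∈ 𝒪) (h : u - v ∈ 𝒪.nonunits) (n : ℕ) :
    u ^ n - v ^ n ∈ 𝒪.nonunits := by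
  induction n with
  | zero =>
    rw [pow_zero, pow_zero, sub_self]
    exact nu_zero
  | succ n ih =>
    have e : u ^ (n + 1) - v ^ (n + 1) = u * (u ^ n - v ^ n) + (u - v) * v ^ n := by ring
    rw [e]
    exact nu_add (nu_mul_left hu ih) (nu_mul_right h (pow_mem hv n))

theorem second_pow_not_mem_ker {P : Place Ω F} (hP : Dom A x P) {c : F}
    (hc : c ∈ chart A ({x} : Set F)) (hc' : c ∉ ker A x P) (n : ℕ) : c ^ n ∉ ker A x P := by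
  induction n with
  | zero =>
    rw [pow_zero]
    exact one_not_mem_ker P
  | succ n ih =>
    rw [pow_succ]
    exact mul_not_mem_ker hP (pow_mem hc n) hc ih hc'

theorem second_cnt_eq_zero {P : Place Ω F} {c : F}
    (hc : c ∈ chart A ({x} : Set F)) (hc' : c ∉ ker A x P) :
    cnt (cls A x (ker A x P)) c = 0 := by
  apply cnt_eq_zero_of_forall
  rintro Q ⟨hQ, hQk⟩
  exact ord_eq_zero_of_not_mem_ker hQ hc (by rw [hQk]; exact hc')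

/-- `t` is a universal parameter.
[if `a ∈ 𝔐`: `σ = 1`, `w = 0`.  Else `exists_normal_form` for the pair `(a, t)`: a parameter `t'`,
`σ₁ a ≡ t' ^ n w₁`, `σ₂ t ≡ t' ^ 1 w₂` (`n₂ = cnt t = 1`), `n = cnt a ≥ 1`
(`exists_zero_of_mem_ker` + `cnt_pos_of_exists`).  Then
`σ₁ w₂ ^ n a ≡ (t' w₂) ^ n w₁ ≡ σ₂ ^ n t ^ n w₁ = t * (t ^ (n-1) σ₂ ^ n w₁)`; `σ₁ w₂ ^ n ∉ ker P`
(`mul_not_mem_ker`).] -/
theorem div_one_of_mem_ker (G : GaussData A 𝒪) (hC : RChart A 𝒪 x) {P : Place Ω F}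
    (hP : Dom A x P) {t : F} (ht : IsParam A 𝒪 x P t) {a : F} (ha : a ∈ ker A x P) :
    Div A 𝒪 x P t 1 a := by
  by_cases ha' : a ∈ 𝒪.nonunits
  · refine ⟨1, one_mem _, one_not_mem_ker P, 0, zero_mem _, ?_⟩
    rw [one_mul, mul_zero, sub_zero]
    exact ha'
  obtain ⟨t', ht', ht'p, n₁, n₂, hn₁, hn₂, ⟨σ₁, hσ₁, hσ₁', w₁, hw₁, -, h₁⟩,
    ⟨σ₂, hσ₂, -, w₂, hw₂, hw₂', h₂⟩⟩ := exists_normal_form G hC hP ha.1 ht.mem ha' ht.prim
  have hO : ∀ c ∈ chart A ({x} : Set F), c ∈ 𝒪 := fun c hc => mem_of_mem_chart G hC.mem hc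
  have hn₂1 : n₂ = 1 := by
    rw [ht.cnt] at hn₂
    exact_mod_cast hn₂
  subst hn₂1
  rw [pow_one] at h₂
  have hn₁pos : 0 < n₁ := by
    obtain ⟨Q, hQ, hQk, hQv⟩ := exists_zero_of_mem_ker G hC hP ha ha'
    have hQord : 0 < Q.ord a := by
      rcases (val_eq_zero_iff Q (ord_nonneg_of_mem_chart hQ ha.1)).1 hQv with h | h
      · exact absurd h (ne_zero_of_not_nu ha')
      · exact h
    have hpos := cnt_pos_of_exists (cls A x (ker A x P)) a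
      (fun Q' hQ' => ord_nonneg_of_mem_chart hQ'.1 ha.1) (P := Q) ⟨hQ, hQk⟩ hQord
    rw [← hn₁] at hpos
    exact_mod_cast hpos
  obtain ⟨m, rfl⟩ : ∃ m, n₁ = m + 1 := ⟨n₁ - 1, by omega⟩
  refine ⟨σ₁ * w₂ ^ (m + 1), mul_mem hσ₁ (pow_mem hw₂ _),
    mul_not_mem_ker hP hσ₁ (pow_mem hw₂ _) hσ₁' (second_pow_not_mem_ker hP hw₂ hw₂' _),
    t ^ m * σ₂ ^ (m + 1) * w₁, mul_mem (mul_mem (pow_mem ht.mem _) (pow_mem hσ₂ _)) hw₁, ?_⟩
  have h3 : t' * w₂ - σ₂ * t ∈ 𝒪.nonunits := by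
    have e : t' * w₂ - σ₂ * t = -(σ₂ * t - t' * w₂) := by ring
    rw [e]
    exact nu_neg h₂
  have h4 := second_pow_sub_pow (hO _ (mul_mem ht'.1 hw₂)) (hO _ (mul_mem hσ₂ ht.mem)) h3 (m + 1)
  have e : σ₁ * w₂ ^ (m + 1) * a - t ^ 1 * (t ^ m * σ₂ ^ (m + 1) * w₁) =
      w₂ ^ (m + 1) * (σ₁ * a - t' ^ (m + 1) * w₁) +
        w₁ * ((t' * w₂) ^ (m + 1) - (σ₂ * t) ^ (m + 1)) := by ring
  rw [e]
  exact nu_add (nu_mul_left (hO _ (pow_mem hw₂ _)) h₁) (nu_mul_left (hO _ hw₁) h4)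

theorem div_mul (G : GaussData A 𝒪) (hC : RChart A 𝒪 x) {P : Place Ω F} (hP : Dom A x P) {t : F}
    (ht : t ∈ chart A ({x} : Set F)) {a b : F} (ha' : a ∈ chart A ({x} : Set F))
    (hb' : b ∈ chart A ({x} : Set F)) {k l : ℕ} (ha : Div A 𝒪 x P t k a)
    (hb : Div A 𝒪 x P t l b) : Div A 𝒪 x P t (k + l) (a * b) := by
  obtain ⟨σ₁, hσ₁, hσ₁', w₁, hw₁, h₁⟩ := ha
  obtain ⟨σ₂, hσ₂, hσ₂', w₂, hw₂, h₂⟩ := hb
  have hO : ∀ c ∈ chart A ({x} : Set F), c ∈ 𝒪 := fun c hc => mem_of_mem_chart G hC.mem hc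
  refine ⟨σ₁ * σ₂, mul_mem hσ₁ hσ₂, mul_not_mem_ker hP hσ₁ hσ₂ hσ₁' hσ₂', w₁ * w₂,
    mul_mem hw₁ hw₂, ?_⟩
  have e : σ₁ * σ₂ * (a * b) - t ^ (k + l) * (w₁ * w₂) =
      (σ₁ * a - t ^ k * w₁) * (σ₂ * b) + t ^ k * w₁ * (σ₂ * b - t ^ l * w₂) := by ring
  rw [e]
  exact nu_add (nu_mul_right h₁ (hO _ (mul_mem hσ₂ hb')))
    (nu_mul_left (hO _ (mul_mem (pow_mem ht _) hw₁)) h₂)

theorem div_add (G : GaussData A 𝒪) (hC : RChart A 𝒪 x) {P : Place Ω F} (hP : Dom A x P) {t : F}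
    {a b : F} {k : ℕ} (ha : Div A 𝒪 x P t k a) (hb : Div A 𝒪 x P t k b) :
    Div A 𝒪 x P t k (a + b) := by
  obtain ⟨σ₁, hσ₁, hσ₁', w₁, hw₁, h₁⟩ := ha
  obtain ⟨σ₂, hσ₂, hσ₂', w₂, hw₂, h₂⟩ := hb
  have hO : ∀ c ∈ chart A ({x} : Set F), c ∈ 𝒪 := fun c hc => mem_of_mem_chart G hC.mem hc
  refine ⟨σ₁ * σ₂, mul_mem hσ₁ hσ₂, mul_not_mem_ker hP hσ₁ hσ₂ hσ₁' hσ₂', σ₂ * w₁ + σ₁ * w₂,
    add_mem (mul_mem hσ₂ hw₁) (mul_mem hσ₁ hw₂), ?_⟩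
  have e : σ₁ * σ₂ * (a + b) - t ^ k * (σ₂ * w₁ + σ₁ * w₂) =
      σ₂ * (σ₁ * a - t ^ k * w₁) + σ₁ * (σ₂ * b - t ^ k * w₂) := by ring
  rw [e]
  exact nu_add (nu_mul_left (hO _ hσ₂) h₁) (nu_mul_left (hO _ hσ₁) h₂)

theorem div_mul_left (G : GaussData A 𝒪) (hC : RChart A 𝒪 x) {P : Place Ω F} {t : F}
    {a c : F} (hc : c ∈ chart A ({x} : Set F)) {k : ℕ} (ha : Div A 𝒪 x P t k a) :
    Div A 𝒪 x P t k (c * a) := by
  obtain ⟨σ, hσ, hσ', w, hw, h⟩ := ha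
  refine ⟨σ, hσ, hσ', c * w, mul_mem hc hw, ?_⟩
  have e : σ * (c * a) - t ^ k * (c * w) = c * (σ * a - t ^ k * w) := by ring
  rw [e]
  exact nu_mul_left (mem_of_mem_chart G hC.mem hc) h

/-- [`σ β ≡ t² w`, so `σ (t + β) ≡ t (σ + t w)`, `σ + t w ∉ ker P` (`t ∈ ker P` because
`val P t = 0`), so the right hand side is primitive (`mem_ker_of_mem_nonunits`, `not_nu_mul`), so
`σ (t + β)` and `t + β` are primitive; `cnt_eq_of_sub_mem`, `cnt_mul`: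
`0 + cnt (t + β) = 1 + 0`.] -/
theorem isParam_add (G : GaussData A 𝒪) (hC : RChart A 𝒪 x) {P : Place Ω F} (hP : Dom A x P)
    {t : F} (ht : IsParam A 𝒪 x P t) {β : F} (hβ : β ∈ chart A ({x} : Set F))
    (hv : val P β = 0) (h2 : Div A 𝒪 x P t 2 β) : IsParam A 𝒪 x P (t + β) := by
  obtain ⟨σ, hσ, hσ', w, hw, h⟩ := h2
  have hO : ∀ c ∈ chart A ({x} : Set F), c ∈ 𝒪 := fun c hc => mem_of_mem_chart G hC.mem hc
  have htk : t ∈ ker A x P := ⟨ht.mem, by rw [ht.val]; exact nu_zero⟩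
  have hmem : t + β ∈ chart A ({x} : Set F) := add_mem ht.mem hβ
  have hs : σ + t * w ∈ chart A ({x} : Set F) := add_mem hσ (mul_mem ht.mem hw)
  have hs' : σ + t * w ∉ ker A x P := by
    intro hc
    apply hσ'
    have e : σ = σ + t * w - w * t := by ring
    rw [e]
    exact sub_mem_ker hP hc (mul_mem_ker hP hw htk)
  have hsp : σ + t * w ∉ 𝒪.nonunits := fun hc => hs' (mem_ker_of_mem_nonunits G hC hP hs hc)
  have hrp : t * (σ + t * w) ∉ 𝒪.nonunits := not_nu_mul (hO _ ht.mem) ht.prim hsp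
  have hsub : σ * (t + β) - t * (σ + t * w) ∈ 𝒪.nonunits := by
    have e : σ * (t + β) - t * (σ + t * w) = σ * β - t ^ 2 * w := by ring
    rw [e]
    exact h
  have hsub' : t * (σ + t * w) - σ * (t + β) ∈ 𝒪.nonunits := by
    have e : t * (σ + t * w) - σ * (t + β) = -(σ * (t + β) - t * (σ + t * w)) := by ring
    rw [e]
    exact nu_neg hsub
  have hlp : σ * (t + β) ∉ 𝒪.nonunits := not_nu_of_sub hrp hsub'
  have hprim : t + β ∉ 𝒪.nonunits := fun hc => hlp (nu_mul_left (hO _ hσ) hc)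
  refine ⟨hmem, hprim, ?_, ?_⟩
  · rw [val_add P (ord_nonneg_of_mem_chart hP ht.mem) (ord_nonneg_of_mem_chart hP hβ), ht.val, hv,
      add_zero]
  · have hc := cnt_eq_of_sub_mem G hC (mul_mem hσ hmem) (mul_mem ht.mem hs) hlp hsub
      (ker A x P)
    have hσ0 : σ ≠ 0 := left_ne_zero_of_mul (ne_zero_of_not_nu hlp)
    rw [cnt_mul _ hσ0 (ne_zero_of_not_nu hprim),
      cnt_mul _ (ne_zero_of_not_nu ht.prim) (ne_zero_of_not_nu hsp), second_cnt_eq_zero hσ hσ',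
      second_cnt_eq_zero hs hs', ht.cnt, zero_add, add_zero] at hc
    exact hc

end Fermat.Agent.S19.ML
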